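import Fermat.Agent.LT.T2.H175.TauSpec

/-!
# Row LT, tower T2, leaf T2.22d.7 `H175.InfGlueC175` (helper488): GLUE at the infinite places

OFF-MAIN.  `infGlueC175_488 (K) : H175.InfGlueC175 K`, VERBATIM the `Prop` of
`LT/T2/H175/TauSpec.lean` (helper175@f81a7bf74, sha256 da27a6e8).  Complete proofs, nothing
assumed.

* `archHom488 : (Π w, GL₂(K_w)) →* GL₂(𝔸_K)` — the element with matrix `B w` at the infinite place
  `w` and `1` at every finite place;
* for `M_w = infComp w g` take `A_w ∈ SU(2)` from `LocArchC175` (real if `w` is real), lift it to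
  `B_w ∈ GL₂(K_w)` (`extensionEmbedding` is onto `ℂ` at a complex place and onto `ℝ` at a real
  place) and put `c = archHom488 B`;
* `c` lies in the group generated by the `K_w`: induction on the set of places where `B ≠ 1`.
-/

set_option autoImplicit false

open IsDedekindDomain NumberField AutomorphicForm
open scoped MatrixGroups

noncomputable section

namespace Fermat.Agent.LT.T2.H488

open Fermat.Agent.LT.H556.A0 Fermat.Agent.LT.T2 Fermat.Agent.LT.T2.H175 Fermat.Agent.LT.T2.H228

variable {K : Type} [Field K] [NumberField K]

/-! ## Matrices over the adeles, by components -/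

theorem adele_ext488 {x y : Adl K} (hI : ∀ w : InfinitePlace K, x.1 w = y.1 w)
    (hF : ∀ v : HeightOneSpectrum (𝓞 K), x.2 v = y.2 v) : x = y :=
  Prod.ext (funext hI) (RestrictedProduct.ext _ _ hF)

theorem adeleMatrix_ext488 {A B : Matrix (Fin 2) (Fin 2) (Adl K)}
    (hI : ∀ w : InfinitePlace K, A.map (infEval228 w) = B.map (infEval228 w))
    (hF : ∀ v : HeightOneSpectrum (𝓞 K), A.map (finEval228 v) = B.map (finEval228 v)) :
    A = B := by
  refine Matrix.ext fun i j => adele_ext488 (fun w => ?_) (fun v => ?_)
  · exact congrFun (congrFun (hI w) i) j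
  · exact congrFun (congrFun (hF v) i) j

/-- The adelic matrix with component `B w` at the infinite place `w` and `1` at the finite
places. -/
def archMat488 (B : ∀ w : InfinitePlace K, Matrix (Fin 2) (Fin 2) w.Completion) :
    Matrix (Fin 2) (Fin 2) (Adl K) :=
  fun i j => ((fun w => B w i j : InfiniteAdeleRing K),
    (1 : Matrix (Fin 2) (Fin 2) (FiniteAdeleRing (𝓞 K) K)) i j)

theorem archMat488_map_inf (B : ∀ w : InfinitePlace K, Matrix (Fin 2) (Fin 2) w.Completion)
    (w : InfinitePlace K) : (archMat488 B).map (infEval228 w) = B w :=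
  Matrix.ext fun _ _ => rfl

theorem archMat488_map_fin (B : ∀ w : InfinitePlace K, Matrix (Fin 2) (Fin 2) w.Completion)
    (v : HeightOneSpectrum (𝓞 K)) : (archMat488 B).map (finEval228 v) = 1 := by
  refine Matrix.ext fun i j => ?_
  simp only [Matrix.map_apply, archMat488]
  by_cases hij : i = j
  · subst hij; simp only [Matrix.one_apply_eq]; rfl
  · simp only [Matrix.one_apply_ne hij]; rfl

theorem one_map_inf488 (w : InfinitePlace K) :
    (1 : Matrix (Fin 2) (Fin 2) (Adl K)).map (infEval228 w) = 1 :=
  Matrix.map_one _ (map_zero _) (map_one _)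

theorem one_map_fin488 (v : HeightOneSpectrum (𝓞 K)) :
    (1 : Matrix (Fin 2) (Fin 2) (Adl K)).map (finEval228 v) = 1 :=
  Matrix.map_one _ (map_zero _) (map_one _)

theorem archMat488_one :
    archMat488 (fun w : InfinitePlace K => (1 : Matrix (Fin 2) (Fin 2) w.Completion)) = 1 := by
  apply adeleMatrix_ext488
  · intro w
    rw [archMat488_map_inf, one_map_inf488]
  · intro v
    rw [archMat488_map_fin, one_map_fin488]

theorem archMat488_mul (B B' : ∀ w : InfinitePlace K, Matrix (Fin 2) (Fin 2) w.Completion) :
    archMat488 (fun w => B w * B' w) = archMat488 B * archMat488 B' := by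
  apply adeleMatrix_ext488
  · intro w
    rw [Matrix.map_mul, archMat488_map_inf, archMat488_map_inf, archMat488_map_inf]
  · intro v
    rw [Matrix.map_mul, archMat488_map_fin, archMat488_map_fin, archMat488_map_fin, mul_one]

/-- **The archimedean embedding** `Π_w GL₂(K_w) →* GL₂(𝔸_K)`. -/
def archHom488 : (∀ w : InfinitePlace K, GL (Fin 2) w.Completion) →* G K where
  toFun B :=
    { val := archMat488 fun w => ((B w : GL (Fin 2) w.Completion) :
        Matrix (Fin 2) (Fin 2) w.Completion)
      inv := archMat488 fun w => (((B w)⁻¹ : GL (Fin 2) w.Completion) :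
        Matrix (Fin 2) (Fin 2) w.Completion)
      val_inv := by
        rw [← archMat488_mul]
        have : (fun w : InfinitePlace K => ((B w : GL (Fin 2) w.Completion) :
            Matrix (Fin 2) (Fin 2) w.Completion) * (((B w)⁻¹ : GL (Fin 2) w.Completion) :
            Matrix (Fin 2) (Fin 2) w.Completion)) = fun w => 1 := by
          funext w
          rw [← Units.val_mul, mul_inv_cancel, Units.val_one]
        rw [this]
        exact archMat488_one
      inv_val := by
        rw [← archMat488_mul]
        have : (fun w : InfinitePlace K => (((B w)⁻¹ : GL (Fin 2) w.Completion) :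
            Matrix (Fin 2) (Fin 2) w.Completion) * ((B w : GL (Fin 2) w.Completion) :
            Matrix (Fin 2) (Fin 2) w.Completion)) = fun w => 1 := by
          funext w
          rw [← Units.val_mul, inv_mul_cancel, Units.val_one]
        rw [this]
        exact archMat488_one }
  map_one' := Units.ext archMat488_one
  map_mul' B B' := Units.ext (archMat488_mul _ _)

theorem coe_archHom488 (B : ∀ w : InfinitePlace K, GL (Fin 2) w.Completion) :
    ((archHom488 B : G K) : Matrix (Fin 2) (Fin 2) (Adl K))
      = archMat488 fun w => ((B w : GL (Fin 2) w.Completion) :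
        Matrix (Fin 2) (Fin 2) w.Completion) := rfl

theorem finComp_archHom488 (B : ∀ w : InfinitePlace K, GL (Fin 2) w.Completion)
    (v : HeightOneSpectrum (𝓞 K)) : finComp v (archHom488 B) = 1 := by
  rw [finComp_eq228, coe_archHom488]
  exact archMat488_map_fin _ v

theorem infEntry_archHom488 (B : ∀ w : InfinitePlace K, GL (Fin 2) w.Completion)
    (w : InfinitePlace K) (i j : Fin 2) :
    (((archHom488 B : G K) : Matrix (Fin 2) (Fin 2) (Adl K)) i j).1 w
      = ((B w : GL (Fin 2) w.Completion) : Matrix (Fin 2) (Fin 2) w.Completion) i j := rfl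

theorem infComp_archHom488 (B : ∀ w : InfinitePlace K, GL (Fin 2) w.Completion)
    (w : InfinitePlace K) :
    infComp w (archHom488 B)
      = ((B w : GL (Fin 2) w.Completion) : Matrix (Fin 2) (Fin 2) w.Completion).map
          (InfinitePlace.Completion.extensionEmbedding w) :=
  Matrix.ext fun _ _ => rfl

theorem trivAtFin_archHom488 (B : ∀ w : InfinitePlace K, GL (Fin 2) w.Completion)
    (v : HeightOneSpectrum (𝓞 K)) : TrivAtFin v (archHom488 B) :=
  finComp_archHom488 B v

open scoped Classical in
theorem trivAtInf_archHom_single488 (a : InfinitePlace K) (x : GL (Fin 2) a.Completion)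
    {w : InfinitePlace K} (hw : w ≠ a) :
    TrivAtInf w (archHom488 (Pi.mulSingle a x)) := by
  intro i j
  rw [infEntry_archHom488, Pi.mulSingle_eq_of_ne hw]
  rfl

open scoped Classical in
theorem isLocalAtInf_archHom_single488 (a : InfinitePlace K) (x : GL (Fin 2) a.Completion) :
    IsLocalAtInf a (archHom488 (Pi.mulSingle a x)) :=
  ⟨fun _ hw => trivAtInf_archHom_single488 a x hw, fun v => trivAtFin_archHom488 _ v⟩

open scoped Classical in
theorem infComp_archHom_single488 (a : InfinitePlace K) (x : GL (Fin 2) a.Completion) :
    infComp a (archHom488 (Pi.mulSingle a x))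
      = (x : Matrix (Fin 2) (Fin 2) a.Completion).map
          (InfinitePlace.Completion.extensionEmbedding a) := by
  rw [infComp_archHom488, Pi.mulSingle_eq_same]

/-! ## Membership in the group generated by the `K_w` -/

/-- `x ∈ GL₂(K_w)` lies in the maximal compact subgroup. -/
def IsCpt488 (w : InfinitePlace K) (x : GL (Fin 2) w.Completion) : Prop :=
  (x : Matrix (Fin 2) (Fin 2) w.Completion).map (InfinitePlace.Completion.extensionEmbedding w)
      * ((x : Matrix (Fin 2) (Fin 2) w.Completion).map
          (InfinitePlace.Completion.extensionEmbedding w)).conjTranspose = 1 ∧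
    ((x : Matrix (Fin 2) (Fin 2) w.Completion).map
      (InfinitePlace.Completion.extensionEmbedding w)).det = 1

open scoped Classical in
theorem isArchCompact_single488 (a : InfinitePlace K) (x : GL (Fin 2) a.Completion)
    (hx : IsCpt488 a x) : IsArchCompact a (archHom488 (Pi.mulSingle a x)) := by
  refine ⟨isLocalAtInf_archHom_single488 a x, ?_, fun _ => ?_⟩
  · rw [infComp_archHom_single488]; exact hx.1
  · rw [infComp_archHom_single488]; exact hx.2

open scoped Classical in
theorem archHom_mem_archGroup488 (B : ∀ w : InfinitePlace K, GL (Fin 2) w.Completion)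
    (hB : ∀ w, IsCpt488 w (B w)) : archHom488 B ∈ archGroup175 K := by
  have key : ∀ S : Finset (InfinitePlace K),
      archHom488 (fun w => if w ∈ S then B w else 1) ∈ archGroup175 K := by
    intro S
    induction S using Finset.induction_on with
    | empty =>
      have : (fun w : InfinitePlace K => if w ∈ (∅ : Finset (InfinitePlace K)) then B w else 1)
          = 1 := by
        funext w
        simp
      rw [this, map_one]
      exact Subgroup.one_mem _
    | insert a S ha ih =>
      have : (fun w : InfinitePlace K => if w ∈ insert a S then B w else 1)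
          = Pi.mulSingle a (B a) * fun w => if w ∈ S then B w else 1 := by
        funext w
        rw [Pi.mul_apply]
        by_cases hwa : w = a
        · subst hwa
          rw [Pi.mulSingle_eq_same, if_pos (Finset.mem_insert_self _ _), if_neg ha, mul_one]
        · rw [Pi.mulSingle_eq_of_ne hwa, one_mul]
          by_cases hwS : w ∈ S
          · rw [if_pos hwS, if_pos (Finset.mem_insert_of_mem hwS)]
          · rw [if_neg hwS, if_neg]
            intro h
            rcases Finset.mem_insert.1 h with h | h
            · exact hwa h
            · exact hwS h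
      rw [this, map_mul]
      refine Subgroup.mul_mem _ ?_ ih
      exact Subgroup.subset_closure ⟨a, isArchCompact_single488 a (B a) (hB a)⟩
  have h := key Finset.univ
  have hu : (fun w : InfinitePlace K => if w ∈ (Finset.univ : Finset (InfinitePlace K))
      then B w else 1) = B := by
    funext w
    simp
  rwa [hu] at h

/-! ## Lifting matrices from `ℂ` to `K_w` -/

theorem exists_lift_entry488 (w : InfinitePlace K) (z : ℂ) (hz : w.IsReal → z.im = 0) :
    ∃ y : w.Completion, InfinitePlace.Completion.extensionEmbedding w y = z := by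
  rcases w.isReal_or_isComplex with hw | hw
  · obtain ⟨y, hy⟩ := InfinitePlace.Completion.surjective_extensionEmbeddingOfIsReal hw z.re
    refine ⟨y, ?_⟩
    rw [← InfinitePlace.Completion.extensionEmbeddingOfIsReal_apply hw, hy]
    exact Complex.ext rfl (by simpa using (hz hw).symm)
  · exact InfinitePlace.Completion.surjective_extensionEmbedding_of_isComplex hw z

theorem im_infComp_of_isReal488 {w : InfinitePlace K} (hw : w.IsReal) (g : G K) (i j : Fin 2) :
    (infComp w g i j).im = 0 := by
  have : infComp w g i j = InfinitePlace.Completion.extensionEmbedding w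
      (((g : Matrix (Fin 2) (Fin 2) (Adl K)) i j).1 w) := rfl
  rw [this, ← InfinitePlace.Completion.extensionEmbeddingOfIsReal_apply hw]
  exact Complex.ofReal_im _

theorem exists_lift_matrix488 (w : InfinitePlace K) (A : Matrix (Fin 2) (Fin 2) ℂ)
    (hA : w.IsReal → ∀ i j, (A i j).im = 0) (hdet : A.det = 1) :
    ∃ x : GL (Fin 2) w.Completion,
      (x : Matrix (Fin 2) (Fin 2) w.Completion).map
        (InfinitePlace.Completion.extensionEmbedding w) = A := by
  have h : ∀ i j, ∃ y : w.Completion,
      InfinitePlace.Completion.extensionEmbedding w y = A i j :=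
    fun i j => exists_lift_entry488 w (A i j) (fun hw => hA hw i j)
  choose Y hY using h
  have hmap : (Matrix.of Y).map (InfinitePlace.Completion.extensionEmbedding w) = A :=
    Matrix.ext fun i j => hY i j
  have hd : (Matrix.of Y).det = 1 := by
    apply (InfinitePlace.Completion.extensionEmbedding w).injective
    rw [RingHom.map_det, RingHom.mapMatrix_apply, hmap, hdet, map_one]
  have hu : IsUnit (Matrix.of Y).det := by rw [hd]; exact isUnit_one
  exact ⟨Matrix.GeneralLinearGroup.mk'' (Matrix.of Y) hu, hmap⟩

/-! ## The leaf -/

/-- **T2.22d.7 GLUE, infinite places**, verbatim `H175.InfGlueC175 K`. -/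
theorem infGlueC175_488 (K : Type) [Field K] [NumberField K] : InfGlueC175 K := by
  intro hArch g
  have h : ∀ w : InfinitePlace K, ∃ x : GL (Fin 2) w.Completion,
      IsCpt488 w x ∧
      thetaM175 (infComp w g) * (x : Matrix (Fin 2) (Fin 2) w.Completion).map
          (InfinitePlace.Completion.extensionEmbedding w)
        = (x : Matrix (Fin 2) (Fin 2) w.Completion).map
          (InfinitePlace.Completion.extensionEmbedding w) * infComp w g := by
    intro w
    obtain ⟨A, hu, hdet, hcomm, hreal⟩ := hArch (infComp w g)
    obtain ⟨x, hx⟩ := exists_lift_matrix488 w A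
      (fun hw => hreal (fun i j => im_infComp_of_isReal488 hw g i j)) hdet
    refine ⟨x, ⟨?_, ?_⟩, ?_⟩
    · rw [hx]; exact hu
    · rw [hx]; exact hdet
    · rw [hx]; exact hcomm
  choose B hB hcomm using h
  refine ⟨archHom488 B, archHom_mem_archGroup488 B hB, fun v => trivAtFin_archHom488 B v,
    fun w => ?_⟩
  rw [infComp_thetaG175, infComp_archHom488]
  exact hcomm w

end Fermat.Agent.LT.T2.H488

end
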